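import Fermat.Agent.A2.Mod.Spec
import Fermat.Agent.A2.H528.FrickeDistinct

/-!
# WALL A2 / MOD, leaf L6 (`VzeroNeStatement`): `V₀ = V∞ ∘ W ≠ V∞` at level `M q`

Level-`E` form of `H528.comapW_ne`.  The Frobenius element `u = j_q - j^q` has `t`-expansion
`q · g` with `g ∈ ℤ((t))`, so `u⁻¹ ∉ V∞` (otherwise `q⁻¹ ∈ V∞ ∩ E = R`); its Fricke transform
`W u = j_M - j_{Mq}^q` has an integral expansion with coefficient `-1` at `t^{-Mq²}`, so it is a
unit of `V∞`, i.e. `u⁻¹ ∈ V∞ ∘ W`.
-/

set_option autoImplicit false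
set_option synthInstance.maxHeartbeats 400000
set_option maxHeartbeats 1600000

noncomputable section

namespace Fermat.Agent.A2.Mod.H986

open ModularCurve HahnSeries Polynomial Fermat.Agent.A2.Mod

variable (P : ValuationSubring Qb) (E : IntermediateField ℚ Qb)

/-- An integral series, viewed in `E((t))` through `R_E((t))`. -/
abbrev intE (G : LaurentSeries ℤ) : LaurentSeries E :=
  H708.incl (RE P E) (H708.castA (RE P E) G)

theorem castQ_jZ (d : ℕ) [NeZero d] : H708.castQ (H528.jZ d) = qExpand ℚ d jq := by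
  have h1 : jq = coeffMap (Int.castRingHom ℚ) (jqModC ℤ) := by
    rw [← jqModC_rat]
    exact (map_jqModC (Int.castRingHom ℚ)).symm
  rw [h1, H528.jZ, H708.castQ, coeffMap_qExpand]

/-- The expansion of `j_d` is integral. -/
theorem coe_jE (N d : ℕ) [NeZero d] (hd : d ∣ N) :
    ((jE E N d hd : FE E N) : LaurentSeries E) = intE P E (H528.jZ d) := by
  rw [intE, H708.incl_castA, castQ_jZ]
  rfl

/-- Elements with integral expansion belong to `V∞`. -/
theorem mem_of_coe_eq_intE {N : ℕ} {V : ValuationSubring (FE E N)} (hV : IsVinf P E N V)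
    {f : FE E N} {G : LaurentSeries ℤ} (hf : (f : LaurentSeries E) = intE P E G) : f ∈ V := by
  rw [hV, hf]
  exact H708.IsGaussInt.of_incl _

/-- Elements with integral expansion having a coefficient `-1` are units of `V∞`. -/
theorem inv_mem_of_coe_eq_intE {N : ℕ} {V : ValuationSubring (FE E N)} (hV : IsVinf P E N V)
    {f : FE E N} {G : LaurentSeries ℤ} (hf : (f : LaurentSeries E) = intE P E G) {n : ℤ}
    (hn : G.coeff n = -1) : f⁻¹ ∈ V := by
  have hred : H708.red (RE P E) (H708.castA (RE P E) G) ≠ 0 := by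
    intro h0
    have h1 := congrArg (fun s => s.coeff n) h0
    simp only [coeffMap_coeff, HahnSeries.coeff_zero, hn, map_neg, map_one, neg_eq_zero] at h1
    exact one_ne_zero h1
  have hne : intE P E G ≠ 0 :=
    H708.incl_ne_zero (RE P E) (H708.ne_zero_of_red_ne_zero (RE P E) hred)
  rw [hV]
  refine ⟨1, H708.castA (RE P E) G, hred, ?_, ?_⟩
  · have := f.2
    rw [hf] at this
    exact this
  · have hinv : ((f⁻¹ : FE E N) : LaurentSeries E) = (intE P E G)⁻¹ := by
      rw [← hf]
      rfl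
    rw [hinv, map_one, inv_mul_cancel₀ hne]

/-- A constant of `V∞` lies in `R_E`. -/
theorem mem_RE_of_algebraMap_mem {N : ℕ} {V : ValuationSubring (FE E N)} (hV : IsVinf P E N V)
    {c : E} (hc : algebraMap E (FE E N) c ∈ V) : c ∈ RE P E := by
  rw [hV] at hc
  have h1 : H708.red (RE P E) (1 : LaurentSeries (RE P E)) ≠ 0 := by
    rw [map_one]; exact one_ne_zero
  refine (H708.isGaussInt_iff_of_normal_form (F₀ := modularFunctionFieldFull N) h1 h1 ?_ ?_).mp hc
  · rw [map_one]; exact one_mem _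
  · rw [map_one, mul_one, mul_one]
    rfl

/-- **Leaf L6** (`VzeroNeStatement`). -/
theorem vzeroNe (M q : ℕ) [NeZero M] [NeZero q] (w : RE P E) : VzeroNeStatement P E M q w := by
  intro hS V W hV hW hcomap
  have : Fact q.Prime := ⟨hS.q_prime⟩
  have hq1 : 1 < q := hS.q_prime.one_lt
  have hMpos : 0 < M := Nat.pos_of_ne_zero hS.M_ne_zero
  -- the Frobenius element
  set u : FE E (M * q) :=
    jE E (M * q) q (dvd_mul_left q M) - jE E (M * q) 1 (one_dvd _) ^ q with hu
  obtain ⟨g, hg⟩ := H528.exists_frobCong q (jqModC ℤ)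
  have hjZ1 : H528.jZ 1 = jqModC ℤ := qExpand_one_apply _
  have hucoe : (u : LaurentSeries E) = intE P E (HahnSeries.C (q : ℤ) * g) := by
    rw [← hg]
    change ((jE E (M * q) q (dvd_mul_left q M) : FE E (M * q)) : LaurentSeries E) -
      ((jE E (M * q) 1 (one_dvd _) : FE E (M * q)) : LaurentSeries E) ^ q = _
    rw [coe_jE P, coe_jE P, intE, intE, intE, map_sub, map_sub, map_pow, map_pow, hjZ1]
    rfl
  -- its Fricke transform
  have hWu : W u = jE E (M * q) M (dvd_mul_right M q) - jE E (M * q) (M * q) dvd_rfl ^ q := by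
    rw [hu, map_sub, map_pow, hW.1 q M (dvd_mul_left q M) (dvd_mul_right M q) (Nat.mul_comm q M),
      hW.1 1 (M * q) (one_dvd _) dvd_rfl (Nat.one_mul _)]
  have hWucoe : ((W u : FE E (M * q)) : LaurentSeries E) =
      intE P E (H528.jZ M - H528.jZ (M * q) ^ q) := by
    rw [hWu]
    change ((jE E (M * q) M (dvd_mul_right M q) : FE E (M * q)) : LaurentSeries E) -
      ((jE E (M * q) (M * q) dvd_rfl : FE E (M * q)) : LaurentSeries E) ^ q = _
    rw [coe_jE P, coe_jE P, intE, intE, intE, map_sub, map_sub, map_pow, map_pow]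
  have hcoef : (H528.jZ M - H528.jZ (M * q) ^ q).coeff (-(((M * q) * q : ℕ) : ℤ)) = -1 := by
    rw [HahnSeries.coeff_sub, H528.coeff_jZ_pow_top, H528.coeff_jZ_of_lt, zero_sub]
    have h2 : M < M * q * q := by
      have h4 : M * 1 < M * q := (Nat.mul_lt_mul_left hMpos).mpr hq1
      have h5 : M * q * 1 < M * q * q :=
        (Nat.mul_lt_mul_left (Nat.mul_pos hMpos (by omega))).mpr hq1
      omega
    have h3 : ((M : ℕ) : ℤ) < ((M * q * q : ℕ) : ℤ) := by exact_mod_cast h2
    linarith
  -- `W u` is a unit of `V`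
  have hWinv : (W u)⁻¹ ∈ V := inv_mem_of_coe_eq_intE P E hV hWucoe hcoef
  -- hence `u⁻¹ ∈ V ∘ W = V`
  have huinv : u⁻¹ ∈ V := by
    rw [← hcomap, ValuationSubring.mem_comap]
    change W u⁻¹ ∈ V
    rw [map_inv₀]
    exact hWinv
  -- but `u = q · g'` with `g'` integral
  have hq0 : (q : E) ≠ 0 := by exact_mod_cast hS.q_prime.ne_zero
  have hc0 : algebraMap E (FE E (M * q)) (q : E) ≠ 0 := by
    rw [Ne, map_eq_zero_iff _ (algebraMap E (FE E (M * q))).injective]
    exact hq0
  have hCq : H708.cst (q : E) = intE P E (HahnSeries.C (q : ℤ)) := by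
    rw [intE, HahnSeries.C_apply, H708.castA, coeffMap_single, coeffMap_single,
      H708.cst, algebraMap_laurentSeries_eq_single]
    congr 1
  have hg' : (((algebraMap E (FE E (M * q)) (q : E))⁻¹ * u : FE E (M * q)) :
      LaurentSeries E) = intE P E g := by
    change ((algebraMap E (FE E (M * q)) (q : E) : FE E (M * q)) : LaurentSeries E)⁻¹ *
      (u : LaurentSeries E) = _
    have h1 : ((algebraMap E (FE E (M * q)) (q : E) : FE E (M * q)) : LaurentSeries E) =
        H708.cst (q : E) := rfl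
    rw [h1, hucoe, intE, map_mul, map_mul, ← intE, ← intE, ← hCq, ← mul_assoc,
      inv_mul_cancel₀ (H708.cst_ne_zero hq0), one_mul]
  have hg'V : (algebraMap E (FE E (M * q)) (q : E))⁻¹ * u ∈ V := mem_of_coe_eq_intE P E hV hg'
  have hu0 : u ≠ 0 := by
    intro h0
    rw [h0, map_zero] at hWinv
    have hW0 : ((W (0 : FE E (M * q)) : FE E (M * q)) : LaurentSeries E) = 0 := by
      rw [map_zero]; rfl
    rw [h0] at hWucoe
    rw [hWucoe] at hW0
    have h1 := congrArg (fun s => s.coeff (-(((M * q) * q : ℕ) : ℤ))) hW0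
    simp only [coeffMap_coeff, HahnSeries.coeff_zero, hcoef] at h1
    have h2 : ((-1 : ℤ) : E) = 0 := by
      simpa using h1
    norm_num at h2
  have hqinv : algebraMap E (FE E (M * q)) ((q : E)⁻¹) ∈ V := by
    have hkey : algebraMap E (FE E (M * q)) ((q : E)⁻¹) =
        ((algebraMap E (FE E (M * q)) (q : E))⁻¹ * u) * u⁻¹ := by
      rw [mul_assoc, mul_inv_cancel₀ hu0, mul_one, map_inv₀]
    rw [hkey]
    exact V.mul_mem _ _ hg'V huinv
  have hmem : (q : E)⁻¹ ∈ RE P E := mem_RE_of_algebraMap_mem P E hV hqinv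
  -- contradiction with `P` lying over `q`
  have hmem' : ((q : Qb))⁻¹ ∈ P := by
    have := (ValuationSubring.mem_comap).mp hmem
    simpa using this
  have hnon : (q : Qb) ∈ P.nonunits := hS.lies_over
  rw [ValuationSubring.mem_nonunits_iff] at hnon
  have h1 : P.valuation ((q : Qb))⁻¹ ≤ 1 := (P.valuation_le_one_iff _).mpr hmem'
  rw [map_inv₀] at h1
  have hq0' : P.valuation (q : Qb) ≠ 0 := by
    rw [Ne, map_eq_zero]
    exact_mod_cast hS.q_prime.ne_zero
  have h2 : 1 ≤ P.valuation (q : Qb) := by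
    rwa [inv_le_one₀ (zero_lt_iff.mpr hq0')] at h1
  exact absurd hnon (not_lt.mpr h2)

end Fermat.Agent.A2.Mod.H986
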